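import Mathlib

/-!
# Euler factors of `∑ |aₙ|² n^{-s}`

If `u 0 = 1` and `u 1 * u k = u (k+1) + e * u (k-1)` with `|e| ≤ 1`, then
`|u 1|^{2m} / m! ≤ ∑_{j} |u (m - 2j)|²`, coefficientwise the inequality
`exp (|u 1|² X) ≤ (∑ |u k|² X^k) / (1 - X²)`.
-/

set_option autoImplicit false

noncomputable section

open Finset

namespace Fermat.DS

/-- The multiplicities in the expansion of the `m`-th power. -/
def ballot : ℕ → ℕ → ℝ
  | 0, k => if k = 0 then 1 else 0
  | (m + 1), 0 => ballot m 1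
  | (m + 1), (k + 1) => ballot m k + ballot m (k + 2)

/-- The multiplicities are nonnegative. -/
theorem ballot_nonneg : ∀ m k, 0 ≤ ballot m k
  | 0, k => by rw [ballot]; split <;> norm_num
  | (m + 1), 0 => by rw [ballot]; exact ballot_nonneg m 1
  | (m + 1), (k + 1) => by rw [ballot]; exact add_nonneg (ballot_nonneg m k) (ballot_nonneg m _)

/-- The multiplicities vanish beyond `m` and off its parity. -/
theorem ballot_eq_zero : ∀ m k, (m < k ∨ (m + k) % 2 = 1) → ballot m k = 0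
  | 0, k, h => by rw [ballot, if_neg (by omega)]
  | (m + 1), 0, h => by rw [ballot]; exact ballot_eq_zero m 1 (by omega)
  | (m + 1), (k + 1), h => by
    rw [ballot, ballot_eq_zero m k (by omega), ballot_eq_zero m (k + 2) (by omega), add_zero]

/-- The sum of the squared multiplicities. -/
def ballotSq (m : ℕ) : ℝ := ∑ k ∈ range (m + 1), ballot m k ^ 2

/-- The squared ballot numbers grow at most by a factor four. -/
theorem ballotSq_succ_le (m : ℕ) : ballotSq (m + 1) ≤ 4 * ballotSq m := by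
  have hz : ∀ j, m < j → ballot m j ^ 2 = 0 := fun j hj => by
    rw [ballot_eq_zero m j (Or.inl hj)]; norm_num
  have hext : ∑ k ∈ range (m + 2 + 1), ballot m k ^ 2 = ballotSq m := by
    rw [sum_range_succ, sum_range_succ, hz _ (by omega), hz _ (by omega), add_zero, add_zero]
    rfl
  rw [ballotSq, sum_range_succ' (fun k => ballot (m + 1) k ^ 2) (m + 1)]
  have h1 : ∀ k, ballot (m + 1) (k + 1) ^ 2 ≤ 2 * ballot m k ^ 2 + 2 * ballot m (k + 2) ^ 2 :=
    fun k => by
      rw [ballot]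
      nlinarith [sq_nonneg (ballot m k - ballot m (k + 2))]
  have h2 : ∑ k ∈ range (m + 1), ballot (m + 1) (k + 1) ^ 2 ≤
      2 * ballotSq m + 2 * ∑ k ∈ range (m + 1), ballot m (k + 2) ^ 2 := by
    refine (sum_le_sum fun k _ => h1 k).trans (le_of_eq ?_)
    rw [sum_add_distrib, ← mul_sum, ← mul_sum]
    rfl
  have h3 : ∑ k ∈ range (m + 2 + 1), ballot m k ^ 2 =
      ∑ k ∈ range (m + 1), ballot m (k + 2) ^ 2 + ballot m 1 ^ 2 + ballot m 0 ^ 2 := by
    rw [sum_range_succ', sum_range_succ']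
  have h4 : ballot (m + 1) 0 = ballot m 1 := by rw [ballot]
  rw [h4]
  nlinarith [sq_nonneg (ballot m 0), sq_nonneg (ballot m 1)]

/-- The sum of squared multiplicities is at most `m!`. -/
theorem ballotSq_le_factorial : ∀ m, ballotSq m ≤ (m.factorial : ℝ)
  | 0 => by simp [ballotSq, ballot]
  | 1 => by simp [ballotSq, ballot, sum_range_succ]
  | 2 => by norm_num [ballotSq, ballot, sum_range_succ, Nat.factorial]
  | 3 => by norm_num [ballotSq, ballot, sum_range_succ, Nat.factorial]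
  | (m + 4) => by
    refine (ballotSq_succ_le (m + 3)).trans ?_
    rw [Nat.factorial_succ, Nat.cast_mul]
    have h := ballotSq_le_factorial (m + 3)
    have h0 : (0 : ℝ) ≤ ((m + 3).factorial : ℝ) := Nat.cast_nonneg _
    have h4 : (4 : ℝ) ≤ ((m + 3 + 1 : ℕ) : ℝ) := by exact_mod_cast Nat.le_add_left 4 m
    nlinarith

variable {u : ℕ → ℂ} {e : ℂ}

/-- The `m`-th power, expanded. -/
theorem norm_pow_le_ballot (h0 : u 0 = 1) (he : ‖e‖ ≤ 1)
    (hu : ∀ k, u (k + 2) + e * u k = u 1 * u (k + 1)) :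
    ∀ m, ‖u 1‖ ^ m ≤ ∑ k ∈ range (m + 1), ballot m k * ‖u k‖
  | 0 => by simp [ballot, h0]
  | (m + 1) => by
    have ih := norm_pow_le_ballot h0 he hu m
    -- from the recursion, `‖u 1‖ ‖u (k + 1)‖ ≤ ‖u (k + 2)‖ + ‖u k‖`
    have hstep : ∀ k, ‖u 1‖ * ‖u (k + 1)‖ ≤ ‖u (k + 2)‖ + ‖u k‖ := fun k => by
      rw [← norm_mul, ← hu k]
      refine (norm_add_le _ _).trans ((add_le_add_iff_left _).mpr ?_)
      rw [norm_mul]
      exact mul_le_of_le_one_left (norm_nonneg _) he
    have hz : ∀ j, m < j → ballot m j = 0 := fun j hj => ballot_eq_zero m j (Or.inl hj)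
    -- multiply the bound for `m` by `‖u 1‖` and regroup by the ballot recursion
    calc ‖u 1‖ ^ (m + 1) = ‖u 1‖ * ‖u 1‖ ^ m := pow_succ' _ _
      _ ≤ ‖u 1‖ * ∑ k ∈ range (m + 2), ballot m k * ‖u k‖ := by
          refine mul_le_mul_of_nonneg_left (ih.trans (le_of_eq ?_)) (norm_nonneg _)
          rw [sum_range_succ (fun k => ballot m k * ‖u k‖) (m + 1), hz _ (by omega)]
          simp
      _ = ballot m 0 * ‖u 1‖ + ∑ k ∈ range (m + 1), ballot m (k + 1) * (‖u 1‖ * ‖u (k + 1)‖) := by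
          rw [sum_range_succ', mul_add, mul_sum, h0, norm_one, add_comm]
          refine congrArg₂ (· + ·) (by ring) (sum_congr rfl fun k _ => by ring)
      _ ≤ ballot m 0 * ‖u 1‖ +
            ∑ k ∈ range (m + 1), ballot m (k + 1) * (‖u (k + 2)‖ + ‖u k‖) :=
          (add_le_add_iff_left _).mpr (sum_le_sum fun k _ =>
            mul_le_mul_of_nonneg_left (hstep k) (ballot_nonneg m _))
      _ = ∑ k ∈ range (m + 2), ballot (m + 1) k * ‖u k‖ := by
          simp only [mul_add, sum_add_distrib]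
          have e1 : ∑ k ∈ range (m + 1), ballot (m + 1) (k + 1) * ‖u (k + 1)‖ =
              ∑ k ∈ range (m + 1), ballot m k * ‖u (k + 1)‖ +
                ∑ k ∈ range (m + 1), ballot m (k + 2) * ‖u (k + 1)‖ := by
            rw [← sum_add_distrib]
            exact sum_congr rfl fun k _ => by rw [ballot, add_mul]
          have e2 : ∑ k ∈ range (m + 1), ballot m k * ‖u (k + 1)‖ =
              ballot m 0 * ‖u 1‖ + ∑ k ∈ range (m + 1), ballot m (k + 1) * ‖u (k + 2)‖ := by
            rw [sum_range_succ' (fun k => ballot m k * ‖u (k + 1)‖) m,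
              sum_range_succ (fun k => ballot m (k + 1) * ‖u (k + 2)‖) m, hz (m + 1) (by omega)]
            ring_nf
          have e3 : ∑ k ∈ range (m + 1), ballot m (k + 1) * ‖u k‖ =
              ballot m 1 * ‖u 0‖ + ∑ k ∈ range (m + 1), ballot m (k + 2) * ‖u (k + 1)‖ := by
            rw [sum_range_succ' (fun k => ballot m (k + 1) * ‖u k‖) m,
              sum_range_succ (fun k => ballot m (k + 2) * ‖u (k + 1)‖) m, hz (m + 2) (by omega)]
            ring_nf
          rw [sum_range_succ' (fun k => ballot (m + 1) k * ‖u k‖) (m + 1), e1, e2, e3,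
            show ballot (m + 1) 0 = ballot m 1 by rw [ballot]]
          ring

/-- A Hecke recursion bounds `‖u 1‖ ^ (2m)` by `m!` times the squares of the `u k` with
`k ≡ m (mod 2)`. -/
theorem sq_pow_le (h0 : u 0 = 1) (he : ‖e‖ ≤ 1)
    (hu : ∀ k, u (k + 2) + e * u k = u 1 * u (k + 1)) (m : ℕ) :
    (‖u 1‖ ^ 2) ^ m ≤ (m.factorial : ℝ) *
      ∑ k ∈ (range (m + 1)).filter (fun k => (m + k) % 2 = 0), ‖u k‖ ^ 2 := by
  set s := (range (m + 1)).filter fun k => (m + k) % 2 = 0
  have hs : ∑ k ∈ range (m + 1), ballot m k * ‖u k‖ = ∑ k ∈ s, ballot m k * ‖u k‖ := by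
    refine (sum_subset (filter_subset _ _) fun k hk hks => ?_).symm
    rw [ballot_eq_zero m k (Or.inr ?_), zero_mul]
    have : ¬ (m + k) % 2 = 0 := fun h => hks (mem_filter.mpr ⟨hk, h⟩)
    omega
  have h1 := (norm_pow_le_ballot h0 he hu m).trans (le_of_eq hs)
  rw [← pow_mul, mul_comm 2 m, pow_mul]
  refine (pow_le_pow_left₀ (by positivity) h1 2).trans ((sum_mul_sq_le_sq_mul_sq s _ _).trans ?_)
  refine mul_le_mul_of_nonneg_right ?_ (sum_nonneg fun k _ => by positivity)
  exact (sum_le_sum_of_subset_of_nonneg (filter_subset _ _) fun k _ _ => by positivity).trans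
    (ballotSq_le_factorial m)

/-- **One Euler factor.** A Hecke recursion bounds the exponential series of `‖u 1‖² X`, times
`1 - X²`, by the series of `‖u k‖² Xᵏ`. -/
theorem exp_partial_le (h0 : u 0 = 1) (he : ‖e‖ ≤ 1)
    (hu : ∀ k, u (k + 2) + e * u k = u 1 * u (k + 1)) {X : ℝ} (hX : 0 ≤ X) (hX1 : X < 1) (M : ℕ) :
    (∑ m ∈ range (M + 1), (‖u 1‖ ^ 2 * X) ^ m / (m.factorial : ℝ)) * (1 - X ^ 2) ≤
      ∑ k ∈ range (M + 1), ‖u k‖ ^ 2 * X ^ k := by
  -- each term is a sum of squares `|u k|²` with `k ≡ m` modulo two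
  have hterm : ∀ m, (‖u 1‖ ^ 2 * X) ^ m / (m.factorial : ℝ) ≤
      (∑ k ∈ (range (m + 1)).filter (fun k => (m + k) % 2 = 0), ‖u k‖ ^ 2) * X ^ m := fun m => by
    rw [mul_pow, mul_div_right_comm]
    refine mul_le_mul_of_nonneg_right ?_ (by positivity)
    rw [div_le_iff₀ (by exact_mod_cast Nat.factorial_pos m), mul_comm]
    exact sq_pow_le h0 he hu m
  -- exchange the sums
  have hswap : ∑ m ∈ range (M + 1),
      (∑ k ∈ (range (m + 1)).filter (fun k => (m + k) % 2 = 0), ‖u k‖ ^ 2) * X ^ m ≤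
      (∑ k ∈ range (M + 1), ‖u k‖ ^ 2 * X ^ k) * ∑ j ∈ range (M + 1), (X ^ 2) ^ j := by
    simp only [sum_mul, mul_sum]
    rw [sum_sigma' , sum_sigma']
    let g : (Σ _ : ℕ, ℕ) → (Σ _ : ℕ, ℕ) := fun a => ⟨(a.1 - a.2) / 2, a.2⟩
    let G : (Σ _ : ℕ, ℕ) → ℝ := fun b => ‖u b.2‖ ^ 2 * X ^ b.2 * (X ^ 2) ^ b.1
    set A := (range (M + 1)).sigma fun m => (range (m + 1)).filter fun k => (m + k) % 2 = 0
    have hA : ∀ a ∈ A, a.2 ≤ a.1 ∧ a.1 ≤ M ∧ (a.1 + a.2) % 2 = 0 := fun a ha => by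
      simp only [A, mem_sigma, mem_filter, mem_range] at ha
      omega
    calc ∑ a ∈ A, ‖u a.2‖ ^ 2 * X ^ a.1 = ∑ a ∈ A, G (g a) := by
          refine sum_congr rfl fun a ha => ?_
          obtain ⟨h1, -, h2⟩ := hA a ha
          simp only [G, g, mul_assoc, ← pow_mul, ← pow_add]
          congr 2
          omega
      _ = ∑ b ∈ A.image g, G b := by
          refine (sum_image fun a ha a' ha' e' => ?_).symm
          obtain ⟨h1, -, h2⟩ := hA a ha
          obtain ⟨h1', -, h2'⟩ := hA a' ha'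
          obtain ⟨m, k⟩ := a
          obtain ⟨m', k'⟩ := a'
          simp only [g, Sigma.mk.injEq, heq_eq_eq] at e'
          obtain ⟨e'', rfl⟩ := e'
          simp only [Sigma.mk.injEq, heq_eq_eq, and_true]
          simp only at h1 h2 h1' h2'
          omega
      _ ≤ _ := by
          refine sum_le_sum_of_subset_of_nonneg (fun b hb => ?_) fun b _ _ => by positivity
          obtain ⟨a, ha, rfl⟩ := mem_image.mp hb
          obtain ⟨h1, h1', h2⟩ := hA a ha
          simp only [g, mem_sigma, mem_range]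
          omega
  have hX2 : 0 < 1 - X ^ 2 := by nlinarith
  -- the geometric series in `X²` is at most `1 / (1 - X²)`
  have hgeo : (∑ j ∈ range (M + 1), (X ^ 2) ^ j) * (1 - X ^ 2) ≤ 1 := by
    rw [geom_sum_mul_neg]
    linarith [pow_nonneg (sq_nonneg X) (M + 1)]
  calc (∑ m ∈ range (M + 1), (‖u 1‖ ^ 2 * X) ^ m / (m.factorial : ℝ)) * (1 - X ^ 2)
      ≤ ((∑ k ∈ range (M + 1), ‖u k‖ ^ 2 * X ^ k) * ∑ j ∈ range (M + 1), (X ^ 2) ^ j) *
          (1 - X ^ 2) :=
        mul_le_mul_of_nonneg_right ((sum_le_sum fun m _ => hterm m).trans hswap) hX2.le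
    _ ≤ ∑ k ∈ range (M + 1), ‖u k‖ ^ 2 * X ^ k := by
        rw [mul_assoc]
        exact mul_le_of_le_one_right (sum_nonneg fun k _ => by positivity) hgeo

end Fermat.DS

end
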