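import Mathlib
import Fermat.Prelude.Def_FLTPrelim_Modularity

/-!
# The mean square of the coefficients of a weight one cusp form

A weight one cusp form is bounded by `C / √y`.  On the line of height `y` Bessel's inequality bounds
`∑ |aₙ|² exp (-4 π n y)` by `C² / y`, so that `∑_{n ≤ x} |aₙ|² = O(x)`.
-/

set_option autoImplicit false

noncomputable section

open CongruenceSubgroup MeasureTheory
open UpperHalfPlane hiding I
open scoped Real ComplexConjugate MatrixGroups

namespace Fermat.DS

/-- The characters of period one. -/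
def eChar (m : ℤ) (u : ℝ) : ℂ := Complex.exp (2 * π * Complex.I * m * u)

/-- The characters are continuous. -/
theorem continuous_eChar (m : ℤ) : Continuous (eChar m) := by
  unfold eChar; fun_prop

/-- The characters multiply by adding frequencies. -/
theorem eChar_mul (m n : ℤ) (u : ℝ) : eChar m u * eChar n u = eChar (m + n) u := by
  rw [eChar, eChar, eChar, ← Complex.exp_add]
  push_cast
  ring_nf

/-- Conjugation negates the frequency. -/
theorem conj_eChar (m : ℤ) (u : ℝ) : conj (eChar m u) = eChar (-m) u := by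
  rw [eChar, eChar, ← Complex.exp_conj]
  congr 1
  simp [Complex.conj_ofReal, Complex.conj_ofNat]

/-- Orthogonality over one period. -/
theorem integral_eChar (m : ℤ) : ∫ u in (0 : ℝ)..1, eChar m u = if m = 0 then 1 else 0 := by
  split_ifs with h
  · subst h; simp [eChar]
  · have hc : 2 * (π : ℂ) * Complex.I * m ≠ 0 := by
      simp [h, Real.pi_ne_zero, Complex.I_ne_zero]
    have e := integral_exp_mul_complex (a := 0) (b := 1) hc
    unfold eChar
    rw [e]
    have h1 : Complex.exp (2 * (π : ℂ) * Complex.I * m) = 1 := by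
      rw [show 2 * (π : ℂ) * Complex.I * m = (m : ℤ) * (2 * π * Complex.I) by ring,
        Complex.exp_int_mul_two_pi_mul_I]
    simp [h1]

/-- **Bessel's inequality** for the characters of period one. -/
theorem bessel_eChar {F : ℝ → ℂ} (hF : Continuous F) (s : Finset ℕ) :
    ∑ n ∈ s, ‖∫ u in (0 : ℝ)..1, eChar (-(n : ℤ)) u * F u‖ ^ 2 ≤
      ∫ u in (0 : ℝ)..1, ‖F u‖ ^ 2 := by
  classical
  set c : ℕ → ℂ := fun n => ∫ u in (0 : ℝ)..1, eChar (-(n : ℤ)) u * F u with hc
  set P : ℝ → ℂ := fun u => ∑ n ∈ s, c n * eChar n u with hP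
  have hPc : Continuous P := continuous_finsetSum _ fun n _ => (continuous_eChar _).const_mul _
  have hP' : Continuous fun u => conj (P u) := Complex.continuous_conj.comp hPc
  have hF' : Continuous fun u => conj (F u) := Complex.continuous_conj.comp hF
  -- the inner products of `F` with the partial sum `P`
  have h1 : ∫ u in (0 : ℝ)..1, F u * conj (P u) = ∑ n ∈ s, c n * conj (c n) := by
    have e : ∀ u, F u * conj (P u) = ∑ n ∈ s, conj (c n) * (eChar (-(n : ℤ)) u * F u) := fun u => by
      simp only [hP, map_sum, map_mul, conj_eChar, Finset.mul_sum]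
      exact Finset.sum_congr rfl fun n _ => by ring
    simp only [e]
    rw [intervalIntegral.integral_finsetSum
      (f := fun n u => conj (c n) * (eChar (-(n : ℤ)) u * F u)) fun n _ =>
      (((continuous_eChar _).mul hF).const_mul (conj (c n))).intervalIntegrable _ _]
    exact Finset.sum_congr rfl fun n _ => by
      rw [intervalIntegral.integral_const_mul, mul_comm]
  have h2 : ∫ u in (0 : ℝ)..1, P u * conj (P u) = ∑ n ∈ s, c n * conj (c n) := by
    have e : ∀ u, P u * conj (P u) =
        ∑ n ∈ s, ∑ m ∈ s, c n * conj (c m) * eChar ((n : ℤ) + -(m : ℤ)) u := fun u => by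
      simp only [hP, map_sum, map_mul, conj_eChar, Finset.sum_mul, Finset.mul_sum, ← eChar_mul]
      rw [Finset.sum_comm]
      exact Finset.sum_congr rfl fun n _ => Finset.sum_congr rfl fun m _ => by ring
    simp only [e]
    rw [intervalIntegral.integral_finsetSum fun n _ =>
      (continuous_finsetSum _ fun m _ => (continuous_eChar _).const_mul _).intervalIntegrable _ _]
    refine Finset.sum_congr rfl fun n hn => ?_
    rw [intervalIntegral.integral_finsetSum fun m _ =>
      ((continuous_eChar _).const_mul _).intervalIntegrable _ _]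
    simp only [intervalIntegral.integral_const_mul, integral_eChar, ← sub_eq_add_neg, sub_eq_zero,
      Nat.cast_inj, mul_ite, mul_one, mul_zero, Finset.sum_ite_eq, if_pos hn]
  have h3 : ∫ u in (0 : ℝ)..1, P u * conj (F u) = ∑ n ∈ s, c n * conj (c n) := by
    have e : ∀ u, P u * conj (F u) = conj (F u * conj (P u)) := fun u => by
      rw [map_mul, Complex.conj_conj, mul_comm]
    simp only [e, intervalIntegral.intervalIntegral_eq_integral_uIoc, zero_le_one, if_true,
      one_smul, integral_conj]
    simp only [intervalIntegral.intervalIntegral_eq_integral_uIoc, zero_le_one, if_true,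
      one_smul] at h1
    rw [h1, map_sum]
    exact Finset.sum_congr rfl fun n _ => by rw [map_mul, Complex.conj_conj, mul_comm]
  have hsq : ∀ z : ℂ, z * conj z = ((‖z‖ ^ 2 : ℝ) : ℂ) := fun z => by
    rw [Complex.mul_conj']; norm_cast
  -- so the square norm of `F - P` is the difference
  have key : ((∫ u in (0 : ℝ)..1, ‖F u - P u‖ ^ 2 : ℝ) : ℂ) =
      ((∫ u in (0 : ℝ)..1, ‖F u‖ ^ 2 : ℝ) : ℂ) - ((∑ n ∈ s, ‖c n‖ ^ 2 : ℝ) : ℂ) := by
    rw [← intervalIntegral.integral_ofReal, ← intervalIntegral.integral_ofReal, Complex.ofReal_sum]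
    simp only [← hsq]
    have e : ∀ u, (F u - P u) * conj (F u - P u) =
        F u * conj (F u) - F u * conj (P u) - P u * conj (F u) + P u * conj (P u) := fun u => by
      rw [map_sub]; ring
    simp only [e]
    have i1 : IntervalIntegrable (fun u => F u * conj (F u)) volume 0 1 :=
      (hF.mul hF').intervalIntegrable _ _
    have i2 : IntervalIntegrable (fun u => F u * conj (P u)) volume 0 1 :=
      (hF.mul hP').intervalIntegrable _ _
    have i3 : IntervalIntegrable (fun u => P u * conj (F u)) volume 0 1 :=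
      (hPc.mul hF').intervalIntegrable _ _
    have i4 : IntervalIntegrable (fun u => P u * conj (P u)) volume 0 1 :=
      (hPc.mul hP').intervalIntegrable _ _
    rw [intervalIntegral.integral_add ((i1.sub i2).sub i3) i4,
      intervalIntegral.integral_sub (i1.sub i2) i3, intervalIntegral.integral_sub i1 i2, h1, h2, h3]
    ring
  have h0 : 0 ≤ ∫ u in (0 : ℝ)..1, ‖F u - P u‖ ^ 2 :=
    intervalIntegral.integral_nonneg zero_le_one fun u _ => by positivity
  have := congrArg Complex.re key
  simp only [Complex.ofReal_re, Complex.sub_re] at this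
  linarith

variable {N : ℕ} [NeZero N] (f : CuspForm (Gamma1 N) 1)

/-- **`∑_{n ≤ x} |aₙ|² = O(x)`.** The coefficients of a weight one cusp form have bounded mean
square. -/
theorem exists_meanSquare_bound : ∃ D : ℝ, 0 ≤ D ∧ ∀ K : ℕ, 0 < K →
    ∑ n ∈ Finset.range (K + 1), ‖ModularFormClass.qCoeff f n‖ ^ 2 ≤ D * K := by
  obtain ⟨C, hC⟩ := CuspFormClass.exists_bound f
  refine ⟨Real.exp (4 * π) * C ^ 2, by positivity, fun K hK => ?_⟩
  -- integrate along the horizontal segment at height `1 / K`
  set t : ℝ := 1 / K with ht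
  have htpos : 0 < t := by positivity
  let pt : ℝ → ℍ := fun u => ⟨u + t * Complex.I, by simpa using htpos⟩
  have hpt : Continuous pt := by
    refine UpperHalfPlane.isEmbedding_coe.continuous_iff.mpr ?_
    change Continuous fun u : ℝ => (u : ℂ) + t * Complex.I
    fun_prop
  have hF : Continuous fun u => f (pt u) :=
    (ModularFormClass.holo f).continuous.comp hpt
  have hper : (1 : ℝ) ∈ (Subgroup.map (Matrix.SpecialLinearGroup.mapGL ℝ)
      (Gamma1 N)).strictPeriods := by
    rw [CongruenceSubgroup.strictPeriods_Gamma1]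
    exact AddSubgroup.mem_zmultiples _
  have hcoef : ∀ n : ℕ, ∫ u in (0 : ℝ)..1, eChar (-(n : ℤ)) u * f (pt u) =
      ((Real.exp (-(2 * π * n * t)) : ℝ) : ℂ) * ModularFormClass.qCoeff f n := by
    intro n
    rw [ModularFormClass.qCoeff, ModularFormClass.qExpansion_coeff_eq_intervalIntegral
      f one_pos hper n
      htpos, Complex.ofReal_one, div_one, one_mul, ← intervalIntegral.integral_const_mul]
    refine intervalIntegral.integral_congr fun u _ => ?_
    simp only [Function.Periodic.qParam, one_div, ← Complex.exp_nat_mul, ← Complex.exp_neg,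
      Complex.ofReal_exp, ← mul_assoc, ← Complex.exp_add, eChar, pt, Complex.ofReal_one, div_one]
    congr 2
    push_cast
    ring_nf
    simp [Complex.I_sq]
  -- there `|f|² ≤ C² K`, as the form is cuspidal of weight one
  have hC0 : ∀ u : ℝ, ‖f (pt u)‖ ^ 2 ≤ C ^ 2 * K := fun u => by
    have him : (pt u).im = t := by simp [pt, UpperHalfPlane.im]
    refine (pow_le_pow_left₀ (norm_nonneg _) (hC (pt u)) 2).trans (le_of_eq ?_)
    rw [him, div_pow, ← Real.rpow_natCast (t ^ _) 2, ← Real.rpow_mul htpos.le, ht]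
    norm_num
  have hint : ∫ u in (0 : ℝ)..1, ‖f (pt u)‖ ^ 2 ≤ C ^ 2 * K := by
    refine (intervalIntegral.integral_mono_on zero_le_one ((hF.norm.pow 2).intervalIntegrable _ _)
      intervalIntegrable_const fun u _ => hC0 u).trans (le_of_eq ?_)
    simp
  -- Bessel's inequality; the exponential factors are at least `exp (-4 π)`
  have hb := (bessel_eChar hF (Finset.range (K + 1))).trans hint
  simp only [hcoef, norm_mul, mul_pow, Complex.norm_real, Real.norm_eq_abs, Real.abs_exp] at hb
  calc ∑ n ∈ Finset.range (K + 1), ‖ModularFormClass.qCoeff f n‖ ^ 2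
      ≤ ∑ n ∈ Finset.range (K + 1), Real.exp (4 * π) *
          (Real.exp (-(2 * π * n * t)) ^ 2 * ‖ModularFormClass.qCoeff f n‖ ^ 2) := by
        refine Finset.sum_le_sum fun n hn => ?_
        rw [← mul_assoc, ← Real.exp_nat_mul, ← Real.exp_add]
        refine le_mul_of_one_le_left (by positivity) (Real.one_le_exp ?_)
        have hnK : (n : ℝ) * t ≤ 1 := by
          rw [ht, mul_one_div, div_le_one (by exact_mod_cast hK)]
          exact_mod_cast Nat.lt_succ_iff.mp (Finset.mem_range.mp hn)
        push_cast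
        nlinarith [Real.pi_pos]
    _ ≤ Real.exp (4 * π) * C ^ 2 * K := by
        rw [← Finset.mul_sum, mul_assoc]
        exact mul_le_mul_of_nonneg_left hb (Real.exp_pos _).le

/-- **The Dirichlet series of `|aₙ|²` grows at most like `1/(s-1)`.** -/
theorem exists_dirichlet_bound : ∃ C : ℝ, 0 < C ∧ ∀ s : ℝ, 1 < s → s < 2 → ∀ T : Finset ℕ,
    ∑ n ∈ T, ‖ModularFormClass.qCoeff f n‖ ^ 2 * (n : ℝ) ^ (-s) ≤ C / (s - 1) := by
  classical
  obtain ⟨D, hD, hsum⟩ := exists_meanSquare_bound f
  refine ⟨8 * D + 1, by positivity, fun s hs1 hs2 T => ?_⟩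
  set a : ℕ → ℝ := fun n => ‖ModularFormClass.qCoeff f n‖ ^ 2
  set L : ℕ := T.sup id + 1
  set r : ℝ := (2 : ℝ) ^ (1 - s) with hr
  have hsub : ∀ n ∈ T, Nat.log 2 n ∈ Finset.range L := fun n hn => Finset.mem_range.mpr
    (Nat.lt_succ_of_le ((Nat.log_le_self 2 n).trans (Finset.le_sup (f := id) hn)))
  rw [← Finset.sum_fiberwise_of_maps_to hsub]
  -- on a dyadic block the sum is at most `2 D r ^ j` with `r = 2 ^ (1 - s)`
  have hfib : ∀ j ∈ Finset.range L, ∑ n ∈ T.filter (fun n => Nat.log 2 n = j),
    a n * (n : ℝ) ^ (-s) ≤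
      2 * D * r ^ j := by
    intro j _
    have hpow : (((2 ^ j : ℕ) : ℝ)) ^ (-s) = (2 : ℝ) ^ (-s * j) := by
      push_cast
      rw [← Real.rpow_natCast, ← Real.rpow_mul (by norm_num), mul_comm]
    calc ∑ n ∈ T.filter (fun n => Nat.log 2 n = j), a n * (n : ℝ) ^ (-s)
        ≤ ∑ n ∈ T.filter (fun n => Nat.log 2 n = j), a n * (2 : ℝ) ^ (-s * j) := by
          refine Finset.sum_le_sum fun n hn => mul_le_mul_of_nonneg_left ?_ (by positivity)
          rcases Nat.eq_zero_or_pos n with rfl | hn0
          · rw [Nat.cast_zero, Real.zero_rpow (by linarith)]; positivity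
          · rw [← hpow]
            refine Real.rpow_le_rpow_of_nonpos (by positivity) ?_ (by linarith)
            exact_mod_cast (Finset.mem_filter.mp hn).2 ▸ Nat.pow_log_le_self 2 hn0.ne'
      _ ≤ (∑ n ∈ Finset.range (2 ^ (j + 1) + 1), a n) * (2 : ℝ) ^ (-s * j) := by
          rw [← Finset.sum_mul]
          refine mul_le_mul_of_nonneg_right (Finset.sum_le_sum_of_subset_of_nonneg (fun n hn => ?_)
            fun n _ _ => by positivity) (by positivity)
          have := Nat.lt_pow_succ_log_self one_lt_two n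
          rw [(Finset.mem_filter.mp hn).2] at this
          exact Finset.mem_range.mpr (by omega)
      _ ≤ D * ((2 ^ (j + 1) : ℕ) : ℝ) * (2 : ℝ) ^ (-s * j) :=
          mul_le_mul_of_nonneg_right (hsum _ (by positivity)) (by positivity)
      _ = 2 * D * r ^ j := by
          rw [hr, ← Real.rpow_natCast ((2 : ℝ) ^ (1 - s)) j, ← Real.rpow_mul (by norm_num)]
          push_cast
          rw [pow_succ, show (1 - s) * (j : ℝ) = (j : ℝ) + -s * j by ring,
            Real.rpow_add (by norm_num), Real.rpow_natCast]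
          ring
  refine (Finset.sum_le_sum hfib).trans ?_
  rw [← Finset.mul_sum]
  have hx : 0 < s - 1 := by linarith
  -- and `1 - r ≥ (s - 1) / 4`
  have hr' : r ≤ 1 / (1 + (s - 1) * Real.log 2) := by
    rw [hr, Real.rpow_def_of_pos (by norm_num), one_div,
      show Real.log 2 * (1 - s) = -((s - 1) * Real.log 2) by ring, Real.exp_neg]
    refine inv_anti₀ (by have := Real.log_pos one_lt_two; positivity) ?_
    linarith [Real.add_one_le_exp ((s - 1) * Real.log 2)]
  have hl1 : (1 : ℝ) / 2 ≤ Real.log 2 := by linarith [Real.log_two_gt_d9]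
  have hl2 : Real.log 2 ≤ 1 := by linarith [Real.log_two_lt_d9]
  have hgap : (s - 1) / 4 ≤ 1 - r := by
    have hpos : 0 < 1 + (s - 1) * Real.log 2 := by nlinarith
    rw [le_div_iff₀ hpos] at hr'
    have h1r : r ≤ 1 := by nlinarith
    have hy1 : (s - 1) * Real.log 2 ≤ 1 := by nlinarith
    nlinarith [mul_nonneg (sub_nonneg.mpr h1r) (sub_nonneg.mpr hy1)]
  have hgeo : ∑ j ∈ Finset.range L, r ^ j ≤ 4 / (s - 1) := by
    have h0 : (∑ j ∈ Finset.range L, r ^ j) * (1 - r) ≤ 1 := by
      rw [geom_sum_mul_neg]; linarith [pow_nonneg (show 0 ≤ r by positivity) L]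
    rw [le_div_iff₀ hx]
    have h1 : 0 ≤ ∑ j ∈ Finset.range L, r ^ j := Finset.sum_nonneg fun j _ => by positivity
    nlinarith
  calc 2 * D * ∑ j ∈ Finset.range L, r ^ j ≤ 2 * D * (4 / (s - 1)) :=
        mul_le_mul_of_nonneg_left hgeo (by positivity)
    _ ≤ (8 * D + 1) / (s - 1) := by
        rw [le_div_iff₀ hx, mul_assoc, div_mul_cancel₀ _ hx.ne']
        linarith

end Fermat.DS

end
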