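import Fermat.Agent.DS.Defs
import Fermat.Agent.DS.Rankin.MeanSquare
import Fermat.Agent.DS.Rankin.Euler

/-!
# Rankin's bound

Truncated Euler products of `∑ |a_n|² n^{-s}` are bounded by the mean square of the form, and each
dominates `exp (|a_p|² p^{-s})` times `1 - p^{-2s}`.

`rankinStatement`; it gives the few values of the eigenvalues (`Main/Bounded`) and irreducibility
(`Main/Irreducible`).
-/

set_option autoImplicit false

noncomputable section

open Finset CongruenceSubgroup Filter Topology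
open scoped MatrixGroups

namespace Fermat.DS

/-- `∏ (1 - 1/n²) ≥ 1/2` over numbers `n ≥ 2`. -/
theorem half_le_prod {T : Finset ℕ} (hT : ∀ n ∈ T, 2 ≤ n) :
    1 / 2 ≤ ∏ n ∈ T, (1 - 1 / (n : ℝ) ^ 2) := by
  have hK : ∀ K : ℕ, ∏ n ∈ range K, (1 - 1 / ((n : ℝ) + 2) ^ 2) = ((K : ℝ) + 2) /
      (2 * ((K : ℝ) + 1)) := by
    intro K
    induction K with
    | zero => norm_num
    | succ K ih =>
      rw [prod_range_succ, ih]
      push_cast
      field_simp
      ring
  have hbound : ∀ n : ℕ, 0 ≤ 1 - 1 / ((n : ℝ) + 2) ^ 2 ∧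
      1 - 1 / ((n : ℝ) + 2) ^ 2 ≤ 1 := fun n => by
    have h0 : (0 : ℝ) ≤ n := Nat.cast_nonneg n
    have h : 1 / ((n : ℝ) + 2) ^ 2 ≤ 1 := by rw [div_le_one (by positivity)]; nlinarith
    exact ⟨by linarith, by linarith [show 0 ≤ 1 / ((n : ℝ) + 2) ^ 2 by positivity]⟩
  set T' := T.image fun n => n - 2
  have e : ∏ n ∈ T, (1 - 1 / (n : ℝ) ^ 2) = ∏ n ∈ T', (1 - 1 / ((n : ℝ) + 2) ^ 2) := by
    rw [prod_image fun a ha b hb e' => by
      have ha' : a - 2 = b - 2 := e'
      have := hT a ha; have := hT b hb; omega]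
    refine prod_congr rfl fun n hn => ?_
    rw [Nat.cast_sub (hT n hn)]
    push_cast
    ring
  rw [e]
  obtain ⟨K, hK'⟩ : ∃ K, T' ⊆ range K :=
    ⟨T'.sup id + 1, fun n hn => mem_range.mpr (Nat.lt_succ_of_le (le_sup (f := id) hn))⟩
  refine le_trans ?_ (le_trans (le_of_eq (prod_sdiff hK').symm)
    (mul_le_of_le_one_left (prod_nonneg fun n _ => (hbound n).1)
      (prod_le_one (fun n _ => (hbound n).1) fun n _ => (hbound n).2)))
  rw [hK K, div_le_div_iff₀ (by norm_num) (by positivity)]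
  linarith

variable {N : ℕ} [NeZero N] {ε : DirichletCharacter ℂ N} {f : CuspForm (Gamma1 N) 1}

local notation "a" => fun n => ModularFormClass.qCoeff f n

/-- The recursion at a prime. -/
theorem IsWeightOneEigen.rec_pow (h : IsWeightOneEigen ε f) {q : ℕ} (hq : q.Prime) (hqN : ¬ q ∣ N)
    (k : ℕ) :
    ModularFormClass.qCoeff f (q ^ (k + 2)) + ε (q : ZMod N) * ModularFormClass.qCoeff f (q ^ k) =
      ModularFormClass.qCoeff f (q ^ 1) * ModularFormClass.qCoeff f (q ^ (k + 1)) := by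
  have := h.hecke q hq hqN (q ^ (k + 1))
  rw [pow_one]
  rwa [← pow_succ', if_pos (dvd_pow_self q k.succ_ne_zero), pow_succ q k,
    Nat.mul_div_cancel _ hq.pos, ← pow_succ] at this

/-- Multiplicativity at a prime. -/
theorem IsWeightOneEigen.mul_pow (h : IsWeightOneEigen ε f) {q : ℕ} (hq : q.Prime) (hqN : ¬ q ∣ N)
    {n : ℕ} (hn : ¬ q ∣ n) : ∀ k : ℕ, ModularFormClass.qCoeff f (q ^ k * n) =
      ModularFormClass.qCoeff f (q ^ k) * ModularFormClass.qCoeff f n
  | 0 => by rw [pow_zero, one_mul, h.one, one_mul]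
  | 1 => by
    have := h.hecke q hq hqN n
    rw [if_neg hn, mul_zero, add_zero] at this
    rwa [pow_one]
  | (k + 2) => by
    have h1 := h.hecke q hq hqN (q ^ (k + 1) * n)
    rw [← mul_assoc, ← pow_succ', if_pos (dvd_mul_of_dvd_left (dvd_pow_self q k.succ_ne_zero) n),
      show q ^ (k + 1) * n / q = q ^ k * n by
        rw [pow_succ', mul_assoc, Nat.mul_div_cancel_left _ hq.pos],
      h.mul_pow hq hqN hn k, h.mul_pow hq hqN hn (k + 1)] at h1
    have h2 := h.rec_pow hq hqN k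
    rw [pow_one] at h2
    linear_combination h1 - ModularFormClass.qCoeff f n * h2

/-- A finite product of truncated Euler factors is part of the Dirichlet series. -/
theorem IsWeightOneEigen.exists_expand (h : IsWeightOneEigen ε f) (P : Finset Nat.Primes)
    (hP : ∀ p ∈ P, ¬ (p : ℕ) ∣ N) (s : ℝ) (M : ℕ) :
    ∃ T : Finset ℕ, (∀ n ∈ T, ∀ q : Nat.Primes, (q : ℕ) ∣ n → q ∈ P) ∧
      ∏ p ∈ P, ∑ k ∈ range (M + 1),
          ‖ModularFormClass.qCoeff f ((p : ℕ) ^ k)‖ ^ 2 * (((p : ℕ) : ℝ) ^ (-s)) ^ k =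
        ∑ n ∈ T, ‖ModularFormClass.qCoeff f n‖ ^ 2 * (n : ℝ) ^ (-s) := by
  classical
  induction P using Finset.induction_on with
  | empty =>
    refine ⟨{1}, fun n hn q hq => absurd ((mem_singleton.mp hn) ▸ hq) q.2.not_dvd_one, ?_⟩
    simp [h.one]
  | insert p P hp ih =>
    obtain ⟨T, hT, e⟩ := ih fun q hq => hP q (mem_insert_of_mem hq)
    have hpT : ∀ n ∈ T, ¬ (p : ℕ) ∣ n := fun n hn hd => hp (hT n hn p hd)
    -- `(k, n) ↦ p ^ k n` is injective
    have hinj : Set.InjOn (fun b : ℕ × ℕ => (p : ℕ) ^ b.1 * b.2)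
        (range (M + 1) ×ˢ T : Finset _) := by
      intro b hb b' hb' e'
      obtain ⟨-, hb⟩ := mem_product.mp hb
      obtain ⟨-, hb'⟩ := mem_product.mp hb'
      have hne : ∀ n ∈ T, n ≠ 0 := fun n hn e0 => hpT n hn (e0 ▸ dvd_zero _)
      have h1 : b.1 = b'.1 := by
        have := congrArg (fun n => n.factorization (p : ℕ)) e'
        simp only [Nat.factorization_mul (pow_ne_zero _ p.2.ne_zero) (hne _ hb),
          Nat.factorization_mul (pow_ne_zero _ p.2.ne_zero) (hne _ hb'), Finsupp.add_apply,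
          p.2.factorization_pow, Finsupp.single_eq_same,
          Nat.factorization_eq_zero_of_not_dvd (hpT _ hb),
          Nat.factorization_eq_zero_of_not_dvd (hpT _ hb'), add_zero] at this
        exact this
      simp only [h1] at e'
      exact Prod.ext h1 (Nat.eq_of_mul_eq_mul_left (pow_pos p.2.pos _) e')
    refine ⟨(range (M + 1) ×ˢ T).image fun b => (p : ℕ) ^ b.1 * b.2, fun n hn q hq => ?_, ?_⟩
    · obtain ⟨⟨k, m⟩, hkm, rfl⟩ := mem_image.mp hn
      rcases q.2.dvd_mul.mp hq with hq | hq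
      · exact mem_insert.mpr (Or.inl (Subtype.ext
          ((Nat.prime_dvd_prime_iff_eq q.2 p.2).mp (q.2.dvd_of_dvd_pow hq))))
      · exact mem_insert_of_mem (hT m (mem_product.mp hkm).2 q hq)
    -- the product over `P` and `p` is then the sum over its image
    · rw [prod_insert hp, e, sum_mul_sum, ← sum_product', sum_image hinj]
      refine sum_congr rfl fun b hb => ?_
      obtain ⟨-, hb⟩ := mem_product.mp hb
      rw [h.mul_pow (q := (p : ℕ)) p.2 (hP p (mem_insert_self p P)) (hpT _ hb), norm_mul,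
        _root_.mul_pow, Nat.cast_mul,
        Nat.cast_pow, Real.mul_rpow (by positivity) (Nat.cast_nonneg _), ← Real.rpow_natCast _ b.1,
        ← Real.rpow_natCast ((p : ℕ) : ℝ) b.1, ← Real.rpow_mul (Nat.cast_nonneg _),
        ← Real.rpow_mul (Nat.cast_nonneg _), mul_comm (b.1 : ℝ) (-s)]
      ring

/-- **Rankin's bound.** For a weight one eigenform the sum of `‖aₚ‖² p⁻ˢ` is at most
`log (1 / (s - 1))` plus a constant. -/
theorem rankinStatement : RankinStatement := by
  intro N _ ε f h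
  obtain ⟨C, hC, hbound⟩ := exists_dirichlet_bound f
  refine ⟨Real.log (2 * C), fun s hs1 hs2 P hP => ?_⟩
  classical
  set x : Nat.Primes → ℝ := fun p => ((p : ℕ) : ℝ) ^ (-s) with hx
  set b : Nat.Primes → ℝ := fun p => ‖ModularFormClass.qCoeff f (p : ℕ)‖ ^ 2 * x p with hb
  have hx1 : ∀ p : Nat.Primes, 0 ≤ x p ∧ x p ≤ 1 / ((p : ℕ) : ℝ) := fun p => by
    have hp : (1 : ℝ) ≤ ((p : ℕ) : ℝ) := by exact_mod_cast p.2.one_le
    refine ⟨by positivity, ?_⟩
    rw [one_div, ← Real.rpow_neg_one]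
    exact Real.rpow_le_rpow_of_exponent_le hp (by linarith)
  have hxlt : ∀ p : Nat.Primes, x p < 1 := fun p => (hx1 p).2.trans_lt (by
    rw [div_lt_one (by exact_mod_cast p.2.pos)]
    exact_mod_cast p.2.one_lt)
  -- Euler factors bound the truncated exponentials; expand and apply the Dirichlet bound
  have hstep : ∀ M : ℕ, (∏ p ∈ P, ∑ m ∈ range (M + 1), b p ^ m / (m.factorial : ℝ)) *
      ∏ p ∈ P, (1 - x p ^ 2) ≤ C / (s - 1) := by
    intro M
    obtain ⟨T, -, hT⟩ := h.exists_expand P hP s M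
    rw [← prod_mul_distrib]
    refine le_trans (prod_le_prod (fun p _ => mul_nonneg (sum_nonneg fun m _ => ?_) ?_)
      fun p hp => ?_) (hT.le.trans (hbound s hs1 hs2 T))
    · have : 0 ≤ b p := mul_nonneg (by positivity) (hx1 p).1
      positivity
    · nlinarith [(hx1 p).1, hxlt p]
    · have := exp_partial_le (u := fun k => ModularFormClass.qCoeff f ((p : ℕ) ^ k))
        (e := ε ((p : ℕ) : ZMod N)) (by simp [h.one]) (DirichletCharacter.norm_le_one ε _)
        (fun k => h.rec_pow p.2 (hP p hp) k) (hx1 p).1 (hxlt p) M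
      simpa only [pow_one] using this
  -- let the truncation tend to infinity
  have hlim : Tendsto (fun M : ℕ => (∏ p ∈ P, ∑ m ∈ range (M + 1), b p ^ m / (m.factorial : ℝ)) *
      ∏ p ∈ P, (1 - x p ^ 2)) atTop (𝓝 ((∏ p ∈ P, Real.exp (b p)) * ∏ p ∈ P, (1 - x p ^ 2))) := by
    refine Tendsto.mul_const _ (tendsto_finsetProd _ fun p _ => ?_)
    have := (NormedSpace.expSeries_div_hasSum_exp (b p)).tendsto_sum_nat
    rw [← Real.exp_eq_exp_ℝ] at this
    exact this.comp (tendsto_add_atTop_nat 1)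
  have hle := le_of_tendsto' hlim hstep
  rw [← Real.exp_sum] at hle
  -- the product of `1 - p^(-2 s)` is at least one half
  have hhalf : 1 / 2 ≤ ∏ p ∈ P, (1 - x p ^ 2) := by
    refine le_trans (half_le_prod (T := P.image fun p : Nat.Primes => (p : ℕ)) fun n hn => by
      obtain ⟨p, -, rfl⟩ := mem_image.mp hn; exact p.2.two_le) ?_
    rw [prod_image (g := fun p : Nat.Primes => (p : ℕ)) fun p _ q _ e => Subtype.ext e]
    refine prod_le_prod (fun p _ => ?_) fun p _ => ?_
    · have h2 : (1 : ℝ) ≤ ((p : ℕ) : ℝ) ^ 2 := by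
        have : (1 : ℝ) ≤ ((p : ℕ) : ℝ) := by exact_mod_cast p.2.one_le
        nlinarith
      rw [sub_nonneg, div_le_one (by linarith)]
      exact h2
    · rw [← one_div_pow]
      exact sub_le_sub_left (pow_le_pow_left₀ (hx1 p).1 (hx1 p).2 2) 1
  have hs0 : 0 < s - 1 := by linarith
  have hexp : Real.exp (∑ p ∈ P, b p) ≤ 2 * C / (s - 1) := by
    have h1 : Real.exp (∑ p ∈ P, b p) * (1 / 2) ≤ C / (s - 1) :=
      (mul_le_mul_of_nonneg_left hhalf (Real.exp_pos _).le).trans hle
    rw [mul_div_assoc]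
    linarith
  have := (Real.le_log_iff_exp_le (by positivity)).mpr hexp
  rw [Real.log_div (by positivity) hs0.ne'] at this
  change ∑ p ∈ P, b p ≤ _
  linarith

end Fermat.DS

end
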